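import Mathlib

/-!
# S15 / Z5, abstract part (pure Mathlib): Cayley-Hamilton descent.

`Λ` a finitely generated subgroup of `J`, stable under a ring `𝒯` of endomorphisms of `J`.
If for all `k` some `eps ∈ 𝒯`, `eps c = (1 - r b) c`, satisfies `C • eps Λ ⊆ r ^ k Λ` (`C ≠ 0` fixed), then some
`t ∈ 𝒯`, `t c = (1 - r b') c`, maps `Λ` into the torsion.
-/

set_option autoImplicit false

namespace Fermat.Agent.S15.Z5

open Polynomial

theorem aeval_semiconj {R M N : Type*} [CommRing R] [AddCommGroup M] [Module R M] [AddCommGroup N]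
    [Module R N] (φ : M →ₗ[R] N) (f : Module.End R M) (g : Module.End R N)
    (h : ∀ x, φ (f x) = g (φ x)) (p : R[X]) (x : M) : φ (aeval f p x) = aeval g p (φ x) := by
  have hpow : ∀ (n : ℕ) (x : M), φ ((f ^ n) x) = (g ^ n) (φ x) := by
    intro n
    induction n with
    | zero => intro x; simp
    | succ n ih => intro x; rw [pow_succ, pow_succ, Module.End.mul_apply, Module.End.mul_apply, ih, h]
  rw [aeval_endomorphism, aeval_endomorphism, Polynomial.sum, Polynomial.sum, map_sum]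
  refine Finset.sum_congr rfl fun n _ => ?_
  rw [map_smul, hpow]

theorem aeval_eigen {J : Type*} [AddCommGroup J] (f : Module.End ℤ J) (c : J) (a : ℤ)
    (h : f c = a • c) (p : ℤ[X]) : aeval f p c = p.eval a • c := by
  have hpow : ∀ n : ℕ, (f ^ n) c = a ^ n • c := by
    intro n
    induction n with
    | zero => simp
    | succ n ih => rw [pow_succ', Module.End.mul_apply, ih, map_smul, h, smul_smul, pow_succ]
  rw [aeval_endomorphism, Polynomial.eval_eq_sum, Polynomial.sum, Polynomial.sum, Finset.sum_smul]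
  refine Finset.sum_congr rfl fun n _ => ?_
  rw [hpow, smul_smul]

theorem eval_congr_one (p : ℤ[X]) (hp : p.Monic) (r : ℤ)
    (hc : ∀ k, p.coeff k ∈ Ideal.span {r} ^ (p.natDegree - k)) (b : ℤ) :
    ∃ b' : ℤ, p.eval (1 - r * b) = 1 - r * b' := by
  have h1 : r ∣ p.eval (1 - r * b) - 1 := by
    rw [Polynomial.eval_eq_sum_range, Finset.sum_range_succ, hp.coeff_natDegree, one_mul, add_sub_assoc]
    apply dvd_add
    · apply Finset.dvd_sum
      intro i hi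
      have hi' : i < p.natDegree := Finset.mem_range.1 hi
      have h2 : p.coeff i ∈ Ideal.span {r} :=
        Ideal.pow_le_self (by omega) (hc i)
      exact Dvd.dvd.mul_right (Ideal.mem_span_singleton.1 h2) _
    · have h3 := sub_dvd_pow_sub_pow (1 - r * b) 1 p.natDegree
      rw [one_pow] at h3
      exact dvd_trans ⟨-b, by ring⟩ h3
  obtain ⟨d, hd⟩ := h1
  exact ⟨-d, by linarith⟩

theorem abs_fin {J : Type*} [AddCommGroup J] (Λ : Submodule ℤ J) (hfg : Λ.FG) (r : ℕ) (hr : r.Prime)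
    (𝒯 : Subalgebra ℤ (Module.End ℤ J)) (hstab : ∀ t ∈ 𝒯, ∀ z ∈ Λ, t z ∈ Λ) (c : J)
    (C : ℕ) (hC : C ≠ 0)
    (h : ∀ k : ℕ, ∃ eps ∈ 𝒯, (∃ b : ℤ, eps c = (1 - (r : ℤ) * b) • c) ∧
      ∀ P ∈ Λ, ∃ y ∈ Λ, r ^ k • y = C • eps P) :
    ∃ t ∈ 𝒯, (∃ b : ℤ, t c = (1 - (r : ℤ) * b) • c) ∧ ∀ z ∈ Λ, ∃ m : ℕ, m ≠ 0 ∧ m • t z = 0 := by
  classical
  obtain ⟨c0, u, hu, hCu⟩ := Nat.exists_eq_pow_mul_and_not_dvd hC r hr.ne_one
  obtain ⟨eps, heps, ⟨b, hb⟩, hdiv⟩ := h (c0 + 1)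
  have : Module.Finite ℤ Λ := Module.Finite.iff_fg.2 hfg
  let e : Module.End ℤ Λ := LinearMap.restrict eps (hstab eps heps)
  let T : Submodule ℤ Λ := Submodule.torsion ℤ Λ
  have hT : T ≤ T.comap e := by
    intro x hx
    rw [Submodule.mem_comap]
    obtain ⟨a, ha⟩ := (Submodule.mem_torsion_iff x).1 hx
    refine (Submodule.mem_torsion_iff _).2 ⟨a, ?_⟩
    have ha' : (a : ℤ) • x = 0 := ha
    show (a : ℤ) • e x = 0
    rw [← map_smul, ha', map_zero]
  let e' : Module.End ℤ (Λ ⧸ T) := T.mapQ T e hT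
  have hcop : IsCoprime (u : ℤ) (r : ℤ) := by
    rw [Int.isCoprime_iff_gcd_eq_one]
    have : Nat.Coprime u r := ((Nat.Prime.coprime_iff_not_dvd hr).2 hu).symm
    simpa [Int.gcd] using this
  obtain ⟨a, b1, hab⟩ := hcop
  have hrange : LinearMap.range e' ≤ Ideal.span {(r : ℤ)} • (⊤ : Submodule ℤ (Λ ⧸ T)) := by
    rintro _ ⟨x, rfl⟩
    obtain ⟨P, rfl⟩ := T.mkQ_surjective x
    obtain ⟨y, hy, hyP⟩ := hdiv P.1 P.2
    have h1 : (r : ℤ) • (⟨y, hy⟩ : Λ) - (u : ℤ) • e P ∈ T := by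
      refine (Submodule.mem_torsion_iff _).2 ⟨⟨(r : ℤ) ^ c0, ?_⟩, ?_⟩
      · exact mem_nonZeroDivisors_of_ne_zero (pow_ne_zero _ (by exact_mod_cast hr.ne_zero))
      · apply Subtype.ext
        show (r : ℤ) ^ c0 • ((r : ℤ) • y - (u : ℤ) • eps P.1) = 0
        have h2 : ((r ^ (c0 + 1) : ℕ) : ℤ) • y = ((C : ℕ) : ℤ) • eps P.1 := by
          rw [natCast_zsmul, natCast_zsmul]; exact hyP
        rw [smul_sub, smul_smul, smul_smul, sub_eq_zero]
        have e1 : (r : ℤ) ^ c0 * (r : ℤ) = ((r ^ (c0 + 1) : ℕ) : ℤ) := by push_cast; ring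
        have e2 : (r : ℤ) ^ c0 * (u : ℤ) = ((C : ℕ) : ℤ) := by rw [hCu]; push_cast; ring
        rw [e1, e2, h2]
    have h2 : (r : ℤ) • T.mkQ (⟨y, hy⟩ : Λ) = (u : ℤ) • e' (T.mkQ P) := by
      have h3 : T.mkQ ((r : ℤ) • (⟨y, hy⟩ : Λ) - (u : ℤ) • e P) = 0 := by
        rw [Submodule.mkQ_apply, Submodule.Quotient.mk_eq_zero]; exact h1
      rw [map_sub, map_smul, map_smul, sub_eq_zero] at h3
      exact h3
    have h4 : e' (T.mkQ P) = (r : ℤ) • (a • T.mkQ (⟨y, hy⟩ : Λ) + b1 • e' (T.mkQ P)) := by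
      calc e' (T.mkQ P) = (a * u + b1 * r) • e' (T.mkQ P) := by rw [hab, one_smul]
        _ = a • ((u : ℤ) • e' (T.mkQ P)) + (r : ℤ) • (b1 • e' (T.mkQ P)) := by
            rw [add_smul, mul_smul, smul_smul (r : ℤ), mul_comm (r : ℤ)]
        _ = (r : ℤ) • (a • T.mkQ (⟨y, hy⟩ : Λ) + b1 • e' (T.mkQ P)) := by
            rw [← h2, smul_add, smul_comm a]
    rw [h4]
    exact Submodule.smul_mem_smul (Ideal.mem_span_singleton_self _) trivial
  obtain ⟨χ, hmon, -, hcoef, hχ⟩ :=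
    LinearMap.exists_monic_and_natDegree_eq_and_coeff_mem_pow_and_aeval_eq_zero ℤ e'
      (Ideal.span {(r : ℤ)}) hrange
  refine ⟨aeval eps χ, ?_, ?_, ?_⟩
  · have := (aeval (⟨eps, heps⟩ : 𝒯) χ).2
    rwa [Polynomial.aeval_subalgebra_coe] at this
  · obtain ⟨b', hb'⟩ := eval_congr_one χ hmon (r : ℤ) hcoef b
    exact ⟨b', by rw [aeval_eigen eps c _ hb, hb']⟩
  · intro z hz
    have h1 : Λ.subtype (aeval e χ ⟨z, hz⟩) = aeval eps χ z :=
      aeval_semiconj Λ.subtype e eps (fun x => rfl) χ ⟨z, hz⟩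
    have h2 : T.mkQ (aeval e χ ⟨z, hz⟩) = 0 := by
      rw [aeval_semiconj T.mkQ e e' (fun x => rfl) χ ⟨z, hz⟩, hχ, LinearMap.zero_apply]
    rw [Submodule.mkQ_apply, Submodule.Quotient.mk_eq_zero] at h2
    obtain ⟨⟨m, hm⟩, hm0⟩ := (Submodule.mem_torsion_iff _).1 h2
    have hm' : m ≠ 0 := nonZeroDivisors.ne_zero hm
    refine ⟨m.natAbs, Int.natAbs_ne_zero.2 hm', ?_⟩
    have h3 : m • aeval eps χ z = 0 := by
      rw [← h1, ← map_smul]
      have : m • (aeval e χ) ⟨z, hz⟩ = 0 := hm0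
      rw [this, map_zero]
    rcases Int.natAbs_eq m with h | h
    · rw [← natCast_zsmul, ← h]; exact h3
    · rw [← natCast_zsmul]
      have : ((m.natAbs : ℕ) : ℤ) = -m := by omega
      rw [this, neg_smul, h3, neg_zero]

end Fermat.Agent.S15.Z5
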