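import Fermat.Agent.S15.Contracts
import Fermat.Agent.S15.Z5.Abs
import Fermat.Agent.S17

/-!
# S15 / Z5: `Fin` from `CoreBound` + S17 (Mordell-Weil).
Input still to be delivered by block H: `HeckeGal` (the `T_q` commute with `G_ℚ` on `J₀(p)(Qbar)`).
-/

set_option autoImplicit false

namespace Fermat.Agent.S15

open AlgebraicCurve ModularCurve Fermat.Agent.S24

/-- **CONTRACT (block H)**: Hecke operators commute with the Galois action on `J₀(p)(Qbar)`. -/
def HeckeGal : Prop :=
  ∀ (p : ℕ) [NeZero p] (q : Nat.Primes) (σ : GQ) (z : JZero p),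
    heckeOperatorBar p q (σ • z) = σ • heckeOperatorBar p q z

theorem TTS_comm (hG : HeckeGal) (p : ℕ) [NeZero p] (S : Finset ℕ) (t : Module.End ℤ (JZero p))
    (ht : t ∈ TTS p S) (σ : GQ) (z : JZero p) : t (σ • z) = σ • t z := by
  revert z
  induction ht using Algebra.adjoin_induction with
  | mem x hx =>
    obtain ⟨q, -, -, rfl⟩ := hx
    exact hG p q σ
  | algebraMap a =>
    intro z
    simp only [Module.algebraMap_end_apply]
    exact ((DistribSMul.toAddMonoidHom (JZero p) σ).map_zsmul a z).symm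
  | add x y _ _ hx hy =>
    intro z
    rw [LinearMap.add_apply, LinearMap.add_apply, hx, hy, smul_add]
  | mul x y _ _ hx hy =>
    intro z
    rw [Module.End.mul_apply, Module.End.mul_apply, hy, hx]

theorem TTS_stab (hG : HeckeGal) (p : ℕ) [NeZero p] (S : Finset ℕ) (t : Module.End ℤ (JZero p))
    (ht : t ∈ TTS p S) (z : JZero p) (hz : z ∈ JQ p) : t z ∈ JQ p := by
  intro σ
  rw [← TTS_comm hG p S t ht σ z, hz σ]

theorem finOfCore (hG : HeckeGal) : FinOfCore := by
  intro p _ r S hadm hcore
  obtain ⟨hp, hp', hr, -, -⟩ := hadm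
  have hp5 : 5 ≤ p := by
    have h2' := hp.two_le
    have hp2 : p ≠ 2 := fun h => hp' (by simp [h])
    have hp3 : p ≠ 3 := fun h => hp' (by simp [h])
    by_contra hlt
    have h4 : p = 4 := by omega
    rw [h4] at hp
    exact absurd hp (by norm_num)
  obtain ⟨C, hC, hk⟩ := hcore
  have hfg : ((JQ p).toIntSubmodule).FG := by
    have h1 := Fermat.Agent.S17.result p hp hp5
    rw [AddGroup.fg_iff_addSubgroup_fg] at h1
    rw [Submodule.fg_iff_addSubgroup_fg]
    exact h1
  exact Z5.abs_fin (JQ p).toIntSubmodule hfg r hr (TTS p S)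
    (fun t ht z hz => TTS_stab hG p S t ht z hz) (cusp p) C hC hk

end Fermat.Agent.S15
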